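import Fermat.Agent.Degen.Abs
import Fermat.Agent.FunField.DegreeFormula
import Fermat.Agent.FunField.AlgClosed

/-!
# Two places over a given place
-/

set_option autoImplicit false
set_option maxHeartbeats 400000
set_option linter.unusedSectionVars false

noncomputable section

open AlgebraicCurve Module Polynomial
open scoped IntermediateField

namespace Fermat.Agent.LA3

open Fermat.Agent.FunField Fermat.Agent.FunField.PlaceLemmas Fermat.Agent.Degen
  Fermat.Agent.HeckeRed

section Unique

variable {K F : Type*} [Field K] [IsAlgClosed K] [Field F] [Algebra K F] [IsFF K F]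

theorem place_unique {f : F} (h : Divisor.degree (zeroDiv f : Divisor K F) = 1)
    {v w : Place K F} (hv : 0 < v.ord f) (hw : 0 < w.ord f) : v = w := by
  classical
  by_contra hne
  have h1 : (Finsupp.single v 1 + Finsupp.single w 1 : Divisor K F) ≤ zeroDiv f := by
    intro u
    rw [Finsupp.add_apply, Finsupp.single_apply, Finsupp.single_apply, zeroDiv_apply]
    by_cases h1 : v = u
    · subst h1
      rw [if_pos rfl, if_neg (fun h => hne h.symm), add_zero]
      exact le_max_of_le_left (by omega)
    · rw [if_neg h1, zero_add]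
      split_ifs with h2
      · subst h2
        exact le_max_of_le_left (by omega)
      · exact le_max_right _ _
  have h2 := degree_mono h1
  rw [map_add, Divisor.degree_single, Divisor.degree_single, deg_eq_one, deg_eq_one, h] at h2
  norm_num at h2

variable {x : F} (hx : Transcendental K x) (h1 : finrank K⟮x⟯ F = 1)
include hx h1

theorem place_unique_sub (a : K) {v w : Place K F} (hv : 0 < v.ord (x - algebraMap K F a))
    (hw : 0 < w.ord (x - algebraMap K F a)) : v = w :=
  place_unique (by rw [sum_ord_sub_algebraMap hx a, h1]; rfl) hv hw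

theorem place_unique_pole {v w : Place K F} (hv : v.ord x < 0) (hw : w.ord x < 0) : v = w := by
  have h2 := degree_poleDiv (K := K) hx
  rw [h1] at h2
  refine place_unique (f := x⁻¹) h2 ?_ ?_ <;> rw [Place.ord_inv] <;> omega

end Unique

section Two

variable {K F F' : Type*} [Field K] [IsAlgClosed K] [Field F] [Algebra K F] [IsFF K F]
  [Field F'] [Algebra K F'] [IsFF K F']

theorem two_roots [CharP K 3] {b c : K} (hb : b ≠ 0) :
    ∃ x y : K, x ≠ y ∧ x ^ 3 + b * x + c = 0 ∧ y ^ 3 + b * y + c = 0 := by
  classical
  let P : K[X] := X ^ 3 + C b * X + C c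
  have hP : P = Cubic.toPoly ⟨1, 0, b, c⟩ := by
    simp [P, Cubic.toPoly]
  have hdeg : P.natDegree = 3 := by
    rw [hP]; exact Cubic.natDegree_of_a_ne_zero one_ne_zero
  have hP0 : P ≠ 0 := by
    intro h; rw [h] at hdeg; simp at hdeg
  have hder : derivative P = C b := by
    have h3' : derivative (X ^ 3 : K[X]) = 0 := by
      rw [derivative_X_pow]
      have : (C ((3 : ℕ) : K) : K[X]) = 0 := by
        rw [CharP.cast_eq_zero K 3, C_0]
      rw [this, zero_mul]
    simp only [P, derivative_add, h3', derivative_C_mul, derivative_X, derivative_C, mul_one,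
      zero_add, add_zero]
  have hsep : P.Separable := by
    rw [separable_def, hder]
    refine ⟨0, C b⁻¹, ?_⟩
    rw [zero_mul, zero_add, ← C_mul, inv_mul_cancel₀ hb, C_1]
  have hnd := nodup_roots hsep
  have hcard : Multiset.card P.roots = 3 := by
    rw [← hdeg]
    exact (IsAlgClosed.splits P).natDegree_eq_card_roots.symm
  have hc2 : 1 < P.roots.toFinset.card := by
    rw [Multiset.toFinset_card_of_nodup hnd, hcard]; norm_num
  obtain ⟨x, hx, y, hy, hxy⟩ := Finset.one_lt_card.mp hc2
  rw [Multiset.mem_toFinset, mem_roots hP0] at hx hy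
  refine ⟨x, y, hxy, ?_, ?_⟩
  · simpa [P] using hx
  · simpa [P] using hy

variable [CharP K 3] (α : F →ₐ[K] F') {j : F} (hj : Transcendental K j)
  (h1 : finrank K⟮j⟯ F = 1) {a : F'} {g c : K} (hg : g ≠ 0) (hc : c ≠ 0)
  (hrel : a ^ 3 + algebraMap K F' g * (α j * a) + algebraMap K F' c = 0)
include hj h1 hg hc hrel

/-- **Two places**: a place of `K(j)` with `j ≠ 0` there has two places of `F'` above. -/
theorem exists_two (v : Place K F) (hv : v.ord j ≤ 0) :
    ∃ w₁ w₂ : Place K F', w₁ ≠ w₂ ∧ res α w₁ = v ∧ res α w₂ = v := by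
  have hinj : Function.Injective (algebraMap K F') := (algebraMap K F').injective
  have hc' : algebraMap K F' c ≠ 0 := (_root_.map_ne_zero _).mpr hc
  have hg' : algebraMap K F' g ≠ 0 := (_root_.map_ne_zero _).mpr hg
  have ha0 : a ≠ 0 := by
    rintro rfl
    apply hc'
    simpa using hrel
  have hαj : Transcendental K (α j) := by
    intro h
    exact hj ((isAlgebraic_algHom_iff α α.toRingHom.injective).mp h)
  have hα0 : α j ≠ 0 := fun h => hαj (h ▸ isAlgebraic_zero)
  have hatr : Transcendental K a := by
    intro h
    apply hαj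
    have e : α j = -(a ^ 3 + algebraMap K F' c) * (algebraMap K F' g * a)⁻¹ := by
      rw [eq_mul_inv_iff_mul_eq₀ (mul_ne_zero hg' ha0)]
      linear_combination hrel
    rw [e]
    exact (((h.pow 3).add (isAlgebraic_algebraMap c)).neg).mul
      ((isAlgebraic_algebraMap g).mul h).inv
  have he : ∀ w : Place K F', 0 < (Place.ramificationIndexAlong α w : ℤ) := fun w => by
    exact_mod_cast ramificationIndexAlong_pos α w
  rcases lt_or_eq_of_le hv with hv | hv
  · -- the poles of `j`
    have key : ∀ w : Place K F', w.ord (α j) < 0 → res α w = v := by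
      intro w hw
      refine place_unique_pole hj h1 ?_ hv
      rw [ord_res] at hw
      by_contra hcon
      push Not at hcon
      have := mul_nonneg (he w).le hcon
      omega
    obtain ⟨w₁, hw₁⟩ := exists_place_ord_pos hatr
    obtain ⟨w₂, hw₂⟩ := exists_place_ord_pos (K := K) (t := a⁻¹) (fun h => hatr (by simpa using h.inv))
    rw [Place.ord_inv] at hw₂
    have e : algebraMap K F' g * (α j * a) = -(algebraMap K F' c + a ^ 3) := by
      linear_combination hrel
    have e' : ∀ w : Place K F', w.ord (α j) + w.ord a = w.ord (algebraMap K F' c + a ^ 3) := by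
      intro w
      rw [← ord_neg w (algebraMap K F' c + a ^ 3), ← e, w.ord_mul hg' (mul_ne_zero hα0 ha0),
        w.ord_mul hα0 ha0, ord_algebraMap, zero_add]
    refine ⟨w₁, w₂, ?_, key _ ?_, key _ ?_⟩
    · rintro rfl; omega
    · have h2 := e' w₁
      rw [ord_add_eq_of_lt w₁ hc' (Or.inr (by
        rw [ord_algebraMap, ord_pow]; push_cast; linarith)), ord_algebraMap] at h2
      linarith
    · have h2 := e' w₂
      rw [add_comm (algebraMap K F' c), ord_add_eq_of_lt w₂ (pow_ne_zero _ ha0) (Or.inr (by
        rw [ord_algebraMap, ord_pow]; push_cast; linarith)), ord_pow] at h2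
      push_cast at h2
      linarith
  · -- finite values
    obtain ⟨j0, hj0⟩ : ∃ j0 : K, 0 < v.ord (j - algebraMap K F j0) := by
      rcases exists_ord_sub_pos_or hj v with h | h
      · exact h
      · omega
    have hj00 : j0 ≠ 0 := by
      rintro rfl
      rw [map_zero, sub_zero] at hj0
      omega
    obtain ⟨x, y, hxy, hx, hy⟩ := two_roots (K := K) (b := g * j0) (c := c)
      (mul_ne_zero hg hj00)
    have key : ∀ x : K, x ^ 3 + g * j0 * x + c = 0 → ∃ w : Place K F',
        0 < w.ord (a - algebraMap K F' x) ∧ res α w = v := by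
      intro x hx
      have hx0 : x ≠ 0 := by
        rintro rfl
        apply hc
        simpa using hx
      obtain ⟨w, hw⟩ := exists_place_ord_pos (transcendental_sub_algebraMap hatr x)
      refine ⟨w, hw, ?_⟩
      refine place_unique_sub hj h1 j0 ?_ hj0
      have hax0 := sub_algebraMap_ne_zero hatr x
      have hoa : w.ord a = 0 := by
        have h2 : a = algebraMap K F' x + (a - algebraMap K F' x) := by ring
        rw [h2, ord_add_eq_of_lt w ((_root_.map_ne_zero _).mpr hx0) (Or.inr (by
          rw [ord_algebraMap]; exact hw)), ord_algebraMap]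
      have h2 : algebraMap K F' x ^ 3 + algebraMap K F' g * algebraMap K F' j0 *
          algebraMap K F' x + algebraMap K F' c = 0 := by
        rw [← map_pow, ← map_mul, ← map_mul, ← map_add, ← map_add, hx, map_zero]
      have h3 : algebraMap K F' g * a * (α j - algebraMap K F' j0) =
          (a - algebraMap K F' x) * (-(a ^ 2 + a * algebraMap K F' x + algebraMap K F' x ^ 2 +
            algebraMap K F' g * algebraMap K F' j0)) := by
        linear_combination hrel - h2
      have h4 : a ∈ geSub w 0 := (mem_geSub_of_ne ha0).mpr hoa.ge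
      have h5 : ∀ t : K, algebraMap K F' t ∈ geSub w 0 := fun t => algebraMap_mem_geSub_zero w t
      have hm : ∀ {f g : F'}, f ∈ geSub w 0 → g ∈ geSub w 0 → f * g ∈ geSub w 0 := by
        intro f g hf hg
        have := mul_mem_geSub hf hg
        rwa [add_zero] at this
      have h6 : (a - algebraMap K F' x) * (-(a ^ 2 + a * algebraMap K F' x +
          algebraMap K F' x ^ 2 + algebraMap K F' g * algebraMap K F' j0)) ∈ geSub w 1 := by
        have h7 : a - algebraMap K F' x ∈ geSub w 1 := (mem_geSub_of_ne hax0).mpr (by omega)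
        have h8 : (-(a ^ 2 + a * algebraMap K F' x +
          algebraMap K F' x ^ 2 + algebraMap K F' g * algebraMap K F' j0)) ∈ geSub w 0 := by
          refine Submodule.neg_mem _ (Submodule.add_mem _ (Submodule.add_mem _
            (Submodule.add_mem _ ?_ (hm h4 (h5 x))) ?_) (hm (h5 g) (h5 j0)))
          · rw [pow_two]; exact hm h4 h4
          · rw [pow_two]; exact hm (h5 x) (h5 x)
        have := mul_mem_geSub h7 h8
        rwa [add_zero] at this
      have hne : α j - algebraMap K F' j0 ≠ 0 := sub_algebraMap_ne_zero hαj j0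
      rw [← h3, mem_geSub_of_ne (mul_ne_zero (mul_ne_zero hg' ha0) hne),
        w.ord_mul (mul_ne_zero hg' ha0) hne, w.ord_mul hg' ha0, ord_algebraMap, hoa] at h6
      have h9 : α j - algebraMap K F' j0 = α (j - algebraMap K F j0) := by
        rw [map_sub, AlgHom.commutes]
      rw [h9, ord_res] at h6
      by_contra hcon
      push Not at hcon
      have := mul_nonpos_of_nonneg_of_nonpos (he w).le hcon
      omega
    obtain ⟨w₁, h2, h3⟩ := key x hx
    obtain ⟨w₂, h4, h5⟩ := key y hy
    refine ⟨w₁, w₂, ?_, h3, h5⟩
    rintro rfl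
    exact hxy (eq_of_ord_sub_pos w₁ h2 h4)

end Two

section Square

variable {K F E E' M : Type*} [Field K] [IsAlgClosed K] [Field F] [Field E] [Field E'] [Field M]
  [Algebra K F] [Algebra K E] [Algebra K E'] [Algebra K M]
  [IsFF K F] [IsFF K E] [IsFF K E'] [IsFF K M]

/-- places of a compositum -/
theorem exists_over (α : F →ₐ[K] E') (β : F →ₐ[K] E) (α' : E →ₐ[K] M) (β' : E' →ₐ[K] M)
    (hsq : α'.comp β = β'.comp α)
    (hN : ∀ f : E', f ≠ 0 → β (normAlong α f) = normAlong α' (β' f))
    (v : Place K E) (w : Place K E') (h : res α w = res β v) :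
    ∃ W : Place K M, res α' W = v ∧ res β' W = w := by
  classical
  have h1 := pull_push_of_norm α β α' β' hsq hN (Finsupp.single w 1)
  have h2 := DFunLike.congr_fun h1 v
  rw [push_single, pull_apply, h, Finsupp.single_eq_same, mul_one] at h2
  have h3 : (0 : ℤ) < Place.ramificationIndexAlong β v := by
    exact_mod_cast ramificationIndexAlong_pos β v
  by_contra hcon
  push Not at hcon
  have h4 : push α' (pull β' (Finsupp.single w 1)) v = 0 := by
    refine push_apply_eq_zero α' fun W hW => ?_
    rw [pull_apply, Finsupp.single_eq_of_ne (hcon W hW), mul_zero]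
  rw [← h2] at h4
  omega

end Square

end Fermat.Agent.LA3
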