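import Fermat.Agent.LA3.Rel
import Fermat.Agent.LA3.Two
import Fermat.Agent.Degen.Modular
import Fermat.Agent.Cusps.OrdVal

/-!
# Places of `X₀(N)` in characteristic three with ramification divisible by three in `X₀(4N)`

**Theorem**: such places are zeros of `j`.
-/

set_option autoImplicit false
set_option maxHeartbeats 400000
set_option linter.unusedSectionVars false
set_option linter.style.haveILetI false

noncomputable section

open AlgebraicCurve Module ModularCurve HahnSeries
open scoped IntermediateField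

namespace Fermat.Agent.LA3

open Fermat.Agent.FunField Fermat.Agent.FunField.PlaceLemmas Fermat.Agent.Degen
open Fermat.Agent.HeckeRed Fermat.Agent.ModPoly Fermat.Agent.ModDeg

section Ram

variable {K F F' : Type*} [Field K] [IsAlgClosed K] [Field F] [Field F']
  [Algebra K F] [Algebra K F'] [IsFF K F] [IsFF K F']

theorem sum_e_le (φ : F →ₐ[K] F') (v : Place K F) (S : Finset (Place K F'))
    (hS : ∀ w ∈ S, res φ w = v) :
    ∑ w ∈ S, Place.ramificationIndexAlong φ w ≤ finrankAlong K φ := by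
  classical
  have h1 : (∑ w ∈ S, Finsupp.single w (Place.ramificationIndexAlong φ w : ℤ) : Divisor K F') ≤
      pull φ (Finsupp.single v 1) := by
    intro u
    rw [Finsupp.finsetSum_apply, pull_apply]
    by_cases hu : u ∈ S
    · rw [Finset.sum_eq_single_of_mem u hu (fun w _ hw => Finsupp.single_eq_of_ne hw.symm),
        Finsupp.single_eq_same, hS u hu, Finsupp.single_eq_same, mul_one]
    · have h0 : ∀ w ∈ S, (Finsupp.single w (Place.ramificationIndexAlong φ w : ℤ) :
          Divisor K F') u = 0 := fun w hw =>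
        Finsupp.single_eq_of_ne (by rintro rfl; exact hu hw)
      rw [Finset.sum_eq_zero h0]
      refine mul_nonneg (Int.natCast_nonneg _) ?_
      rw [Finsupp.single_apply]
      split_ifs <;> norm_num
  have h2 := degree_mono h1
  rw [degree_pull, Divisor.degree_single, deg_eq_one, map_sum] at h2
  simp only [Divisor.degree_single, deg_eq_one] at h2
  norm_num at h2
  exact_mod_cast h2

theorem exists_res_eq (φ : F →ₐ[K] F') (v : Place K F) : ∃ w : Place K F', res φ w = v := by
  letI := algebraAlong φ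
  haveI := isScalarTower_along φ
  haveI : Module.Finite F F' := finiteAlong_of_isFF φ
  exact exists_restrict_eq v

end Ram

variable {κ : Type*} [Field κ] [IsAlgClosed κ]

section Incl

variable {M N : ℕ} [NeZero M] [NeZero N]

/-- inclusions of modular function fields -/
def inc (κ : Type*) [Field κ] {M N : ℕ} [NeZero M] [NeZero N] (h : M ∣ N) :
    modularFunctionFieldFullC κ M →ₐ[κ] modularFunctionFieldFullC κ N :=
  IntermediateField.inclusion (full_degeneracyC_le κ h)

theorem coe_inc (h : M ∣ N) (x : modularFunctionFieldFullC κ M) :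
    (inc κ h x : LaurentSeries κ) = x :=
  IntermediateField.coe_inclusion (full_degeneracyC_le κ h) x

theorem inc_jF (h : M ∣ N) : inc κ h (jF κ M) = jF κ N := Subtype.ext (coe_inc h (jF κ M))

end Incl

theorem finrank_one : finrank κ⟮jF κ 1⟯ (modularFunctionFieldFullC κ 1) = 1 := by
  rw [Cusps.finrank_adjoin_eq_relfinrank]
  have h := ModDeg.relfinrank_full_of_isAlgClosed (K := κ) 1 (by simp)
  rw [dedekindPsi_one] at h
  exact h

variable [CharP κ 3]

theorem alphaL_mem : alphaL κ 2 ∈ modularFunctionFieldFullC κ (1 * 2) := by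
  have h1 : jqModC κ ∈ modularFunctionFieldFullC κ (1 * 2) := jqModC_mem_full κ _
  have h2 : qExpand κ 2 (jqModC κ) ∈ modularFunctionFieldFullC κ (1 * 2) := by
    have h3 := vj_mem_full (N := 1 * 2) κ (d := 2) two_ne_zero ⟨1, by norm_num⟩
    rwa [vj_eq] at h3
  have h3 : qExpand κ 2 (dL κ) = (qExpand κ 2 (jqModC κ))⁻¹ := by
    rw [jqModC_eq_dInv]
    apply eq_inv_of_mul_eq_one_left
    rw [← map_mul, dL_mul_dInv, map_one]
  rw [alphaL, h3, ← jqModC_eq_dInv]
  refine mul_mem (mul_mem (pow_mem ?_ _) (inv_mem h2)) h1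
  exact natCast_mem _ 2

/-- the two points of `X₀(2)` above a point of `X(1)` different from `j = 0` -/
theorem exists_two_one (v : Place κ (modularFunctionFieldFullC κ 1))
    (hv : v.ord (jF κ 1) ≤ 0) :
    ∃ w₁ w₂ : Place κ (modularFunctionFieldFullC κ (1 * 2)), w₁ ≠ w₂ ∧
      res (inc κ (Dvd.intro 2 rfl : 1 ∣ 1 * 2)) w₁ = v ∧
      res (inc κ (Dvd.intro 2 rfl : 1 ∣ 1 * 2)) w₂ = v := by
  obtain ⟨g, c, hg, hc, hrel⟩ := rel κ
  refine exists_two (inc κ (Dvd.intro 2 rfl : 1 ∣ 1 * 2)) (transcendental_jF κ 1) finrank_one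
    (a := ⟨alphaL κ 2, alphaL_mem⟩) hg hc ?_ v hv
  have h1 : ((inc κ (Dvd.intro 2 rfl : 1 ∣ 1 * 2) (jF κ 1) :
      modularFunctionFieldFullC κ (1 * 2)) : LaurentSeries κ) = jqModC κ := coe_inc _ _
  apply Subtype.ext
  rw [← h1] at hrel
  exact hrel

variable {N : ℕ} [NeZero N]

/-- two points of `X₀(2N)` above a point of `X₀(N)` which is not a zero of `j` -/
theorem exists_two_level (h2 : ¬ 2 ∣ N) (h3 : ¬ 3 ∣ N)
    (v : Place κ (modularFunctionFieldFullC κ N)) (hv : v.ord (jF κ N) ≤ 0) :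
    ∃ w₁ w₂ : Place κ (modularFunctionFieldFullC κ (N * 2)), w₁ ≠ w₂ ∧
      res (inc κ (Dvd.intro 2 rfl : N ∣ N * 2)) w₁ = v ∧
      res (inc κ (Dvd.intro 2 rfl : N ∣ N * 2)) w₂ = v := by
  set α := inc κ (Dvd.intro 2 rfl : 1 ∣ 1 * 2) with hα
  set β := inc κ (one_dvd N) with hβ
  set α' := inc κ (Dvd.intro 2 rfl : N ∣ N * 2) with hα'
  set β' := inc κ (mul_dvd_mul_right (one_dvd N) 2) with hβ'
  have hNκ : (N : κ) ≠ 0 := fun h => h3 ((CharP.cast_eq_zero_iff κ 3 N).mp h)
  have h2κ : ((2 : ℕ) : κ) ≠ 0 := two_ne_zero' κ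
  have hv1 : (res β v).ord (jF κ 1) ≤ 0 := by
    have h1 := ord_res β v (jF κ 1)
    rw [hβ, inc_jF, ← hβ] at h1
    rw [h1] at hv
    have h4 : (0 : ℤ) < Place.ramificationIndexAlong β v := by
      exact_mod_cast ramificationIndexAlong_pos β v
    by_contra hcon
    push Not at hcon
    have := mul_pos h4 hcon
    omega
  obtain ⟨w₁, w₂, hne, hw₁, hw₂⟩ := exists_two_one (res β v) hv1
  have hsq : α'.comp β = β'.comp α := by
    refine AlgHom.ext fun x => Subtype.ext ?_
    show ((α' (β x) : modularFunctionFieldFullC κ (N * 2)) : LaurentSeries κ) =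
      (β' (α x) : modularFunctionFieldFullC κ (N * 2))
    rw [hα', hβ, hβ', hα, coe_inc, coe_inc, coe_inc, coe_inc]
  have hnorm : ∀ f : modularFunctionFieldFullC κ (1 * 2), f ≠ 0 →
      β (normAlong α f) = normAlong α' (β' f) := by
    intro f _
    refine normAlong_baseChange α β α' β' hsq ?_ ?_ f
    · intro S hS1 hS2
      refine gen_alpha' (N := 1) (d := 1) hNκ h2κ h2 (by simp) S ?_ ?_
      · intro x hx h
        have h5 := hS1 ⟨x, hx⟩
        have h6 : (⟨x, h⟩ : modularFunctionFieldFullC κ (N * 2)) = α' ⟨x, hx⟩ :=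
          Subtype.ext (coe_inc _ ⟨x, hx⟩).symm
        rw [h6]
        exact h5
      · intro x hx h
        have h5 := hS2 ⟨x, hx⟩
        have h6 : (⟨qExpand κ 1 x, h⟩ : modularFunctionFieldFullC κ (N * 2)) = β' ⟨x, hx⟩ :=
          Subtype.ext ((qExpand_one_apply x).trans (coe_inc _ ⟨x, hx⟩).symm)
        rw [h6]
        exact h5
    · rw [AtkinLehner.finrankAlong_alpha_eq hNκ h2κ h2 rfl rfl α' (coe_inc _),
        AtkinLehner.finrankAlong_alpha_eq (N := 1) (by simp) h2κ (by norm_num) rfl rfl α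
          (coe_inc _)]
  obtain ⟨W₁, hW₁, hW₁'⟩ := exists_over α β α' β' hsq hnorm v w₁ hw₁
  obtain ⟨W₂, hW₂, hW₂'⟩ := exists_over α β α' β' hsq hnorm v w₂ hw₂
  refine ⟨W₁, W₂, ?_, hW₁, hW₂⟩
  rintro rfl
  exact hne (hW₁'.symm.trans hW₂')

/-- **A1**: a point of `X₀(N)` in characteristic three (`N` prime to `6`) such that all the
ramification indices above it in `X₀(4N)` are divisible by three is a zero of `j`. -/
theorem ord_j_pos (h2 : ¬ 2 ∣ N) (h3 : ¬ 3 ∣ N)
    {E E' : IntermediateField κ (LaurentSeries κ)} [IsFF κ E] [IsFF κ E']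
    (hE : E = modularFunctionFieldFullC κ N) (hE' : E' = modularFunctionFieldFullC κ (N * 4))
    (φ : E →ₐ[κ] E') (hφ : ∀ x, (φ x : LaurentSeries κ) = x)
    (j : E) (hj : (j : LaurentSeries κ) = jqModC κ) (v : Place κ E)
    (hv : ∀ w : Place κ E', res φ w = v → 3 ∣ Place.ramificationIndexAlong φ w) :
    0 < v.ord j := by
  subst hE
  have hN4 : N * 4 = N * 2 * 2 := by ring
  rw [hN4] at hE'
  subst hE'
  by_contra hcon
  push Not at hcon
  have ej : j = jF κ N := Subtype.ext hj
  rw [ej] at hcon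
  have hNκ : (N : κ) ≠ 0 := fun h => h3 ((CharP.cast_eq_zero_iff κ 3 N).mp h)
  have h2κ : ((2 : ℕ) : κ) ≠ 0 := two_ne_zero' κ
  obtain ⟨w₁, w₂, hne, hw₁, hw₂⟩ := exists_two_level h2 h3 v hcon
  set α' := inc κ (Dvd.intro 2 rfl : N ∣ N * 2) with hα'
  set ψ := inc κ (Dvd.intro 2 rfl : N * 2 ∣ N * 2 * 2) with hψ
  have hcomp : ψ.comp α' = φ := by
    refine AlgHom.ext fun x => Subtype.ext ?_
    rw [hφ]
    show ((ψ (α' x) : modularFunctionFieldFullC κ (N * 2 * 2)) : LaurentSeries κ) = x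
    rw [hψ, hα', coe_inc, coe_inc]
  -- degrees
  have d1 : finrankAlong κ α' = 3 :=
    AtkinLehner.finrankAlong_alpha_eq hNκ h2κ h2 rfl rfl α' (coe_inc _)
  have d2 : finrankAlong κ ψ = 2 := by
    have hNp : ((N * 2 * 2 : ℕ) : κ) ≠ 0 := by
      rw [Nat.cast_mul, Nat.cast_mul]
      exact mul_ne_zero (mul_ne_zero hNκ h2κ) h2κ
    have h4 := finrankAlong_alpha (N := N * 2) (p := 2) rfl rfl ψ (coe_inc _) hNp
    rw [psi_mul_prime_of_dvd (mul_ne_zero (NeZero.ne N) two_ne_zero) Nat.prime_two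
      (Dvd.intro_left N rfl)] at h4
    exact Nat.eq_of_mul_eq_mul_right (HeckeRed.dedekindPsi_pos (N * 2)) h4
  classical
  have e1 : Place.ramificationIndexAlong α' w₁ + Place.ramificationIndexAlong α' w₂ ≤ 3 := by
    have h4 := sum_e_le α' v {w₁, w₂} (by
      intro w hw
      rw [Finset.mem_insert, Finset.mem_singleton] at hw
      rcases hw with rfl | rfl
      · exact hw₁
      · exact hw₂)
    rwa [Finset.sum_pair hne, d1] at h4
  have p1 := ramificationIndexAlong_pos α' w₁
  have p2 := ramificationIndexAlong_pos α' w₂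
  obtain ⟨W, hW⟩ := exists_res_eq ψ w₁
  have e2 : Place.ramificationIndexAlong ψ W ≤ 2 := by
    have h4 := sum_e_le ψ w₁ {W} (by
      intro w hw
      rw [Finset.mem_singleton] at hw
      rw [hw]; exact hW)
    rwa [Finset.sum_singleton, d2] at h4
  have p3 := ramificationIndexAlong_pos ψ W
  have h5 := ramificationIndexAlong_comp α' ψ W
  rw [hcomp, hW] at h5
  have h6 := hv W (by rw [← hcomp, ← res_res, hW]; exact hw₁)
  rw [h5] at h6
  rcases (Nat.Prime.dvd_mul Nat.prime_three).mp h6 with h7 | h7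
  · exact absurd (Nat.le_of_dvd p3 h7) (by omega)
  · exact absurd (Nat.le_of_dvd p1 h7) (by omega)

end Fermat.Agent.LA3
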