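import Fermat.Agent.ModPoly.BaseCase
import Fermat.Agent.HeckeRed.FrobPow

/-!
# The level two relation in characteristic three

In characteristic `3` the series `a = Δ(q²)/Δ(q)` satisfies `a³ + g j a + c = 0` with non-zero
constants `g`, `c`.
-/

set_option autoImplicit false
set_option maxHeartbeats 400000

noncomputable section

open HahnSeries ModularCurve

namespace Fermat.Agent.LA3

open Fermat.Agent.ModPoly

variable (K : Type*) [Field K] [CharP K 3]

instance fact_three : Fact (Nat.Prime 3) := ⟨Nat.prime_three⟩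
instance fact_two : Fact (Nat.Prime 2) := ⟨Nat.prime_two⟩

variable {K} in
theorem coeff_cube (x : LaurentSeries K) {n : ℤ} (h : ¬ (3 : ℤ) ∣ n) : (x ^ 3).coeff n = 0 := by
  rw [HeckeRed.pow_char_laurent 3 x]
  exact qExpand_coeff_of_not_dvd _ _ (by exact_mod_cast h)

omit [CharP K 3] in
/-- `Δ = q U³` -/
theorem exists_dL : ∃ U : LaurentSeries K, U ≠ 0 ∧ dL K = HahnSeries.single (1 : ℤ) 1 * U ^ 3 := by
  refine ⟨HahnSeries.ofPowerSeries ℤ K ((etaProd ^ 8).map (Int.castRingHom K)), ?_, ?_⟩
  · intro h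
    have h1 : dL K = 0 := by
      rw [dL_eq, dedekindEtaUnit, show (24 : ℕ) = 8 * 3 from rfl, pow_mul, map_pow, map_pow, h]
      simp
    exact dL_ne_zero h1
  · rw [dL_eq, dedekindEtaUnit, show (24 : ℕ) = 8 * 3 from rfl, pow_mul, map_pow _ _ 3,
      map_pow _ _ 3]

theorem jqModC_eq_dInv : jqModC K = dInv K := by
  rw [jqModC_eq]
  have h : eL K = 1 := by
    have h1 : eisenstein4.map (Int.castRingHom K) = 1 := by
      ext n
      rw [PowerSeries.coeff_map, eisenstein4, PowerSeries.coeff_mk, PowerSeries.coeff_one]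
      split_ifs with h
      · simp
      · have h2 : ((240 : ℤ) : K) = 0 := by
          have := (CharP.cast_eq_zero_iff K 3 240).mpr ⟨80, by norm_num⟩
          exact_mod_cast this
        rw [map_mul, eq_intCast, h2, zero_mul]
    rw [eL, e4cube, map_pow, h1, one_pow, map_one]
  rw [h, one_mul]

theorem two_ne_zero' : ((2 : ℕ) : K) ≠ 0 := by
  intro h
  have := (CharP.cast_eq_zero_iff K 3 2).mp h
  norm_num at this

theorem isPrimitiveRoot_neg_one : IsPrimitiveRoot (-1 : Kˣ) 2 := by
  rw [IsPrimitiveRoot.iff_def]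
  refine ⟨by norm_num, fun l hl => ?_⟩
  rcases Nat.even_or_odd l with h | h
  · exact h.two_dvd
  · exfalso
    rw [Odd.neg_one_pow h] at hl
    have h1 : (-1 : K) = 1 := by simpa using congrArg Units.val hl
    apply two_ne_zero' K
    push_cast
    linear_combination -h1

variable {K} in
omit [CharP K 3] in
theorem coeff_order_ne_zero {x : LaurentSeries K} (hx : x ≠ 0) {n : ℤ} (h : x.order = n) :
    x.coeff n ≠ 0 := by
  subst h
  exact fun h => hx (HahnSeries.coeff_order_eq_zero.mp h)

variable {K} in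
omit [CharP K 3] in
/-- an upper bound for the degree of a polynomial from the order of its value at `j(q²)` -/
theorem natDegree_le_of_coeff {G : Polynomial K} {m : ℕ}
    (h : ∀ n : ℤ, n < -(2 * m + 1 : ℤ) → (evK K 2 G).coeff n = 0) : G.natDegree ≤ m := by
  by_contra hcon
  push Not at hcon
  have hG : G ≠ 0 := by rintro rfl; simp at hcon
  have h1 : (evK K 2 G).order = 2 * -(G.natDegree : ℤ) := by
    rw [evK_apply, order_qExpand, order_aeval_jqModC hG]; rfl
  have h2 : evK K 2 G ≠ 0 := fun h0 => hG ((map_eq_zero_iff _ (evK_injective 2)).mp h0)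
  refine coeff_order_ne_zero h2 h1 (h _ ?_)
  have : (m : ℤ) + 1 ≤ G.natDegree := by exact_mod_cast hcon
  linarith

omit [CharP K 3] in
theorem single_one_mul : (HahnSeries.single (-1 : ℤ) (1 : K)) * HahnSeries.single (1 : ℤ) 1 = 1 := by
  rw [HahnSeries.single_mul_single]; simp

/-- `j = q⁻¹ W³` -/
theorem exists_j : ∃ W : LaurentSeries K, jqModC K = HahnSeries.single (-1 : ℤ) 1 * W ^ 3 := by
  obtain ⟨U, hU, h⟩ := exists_dL K
  refine ⟨U⁻¹, ?_⟩
  rw [jqModC_eq_dInv]
  have h1 := dL_mul_dInv K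
  rw [h] at h1
  have h2 : U⁻¹ ^ 3 * U ^ 3 = 1 := by
    rw [← mul_pow, inv_mul_cancel₀ hU, one_pow]
  linear_combination (HahnSeries.single (-1 : ℤ) (1 : K)) * U⁻¹ ^ 3 * h1 -
    dInv K * U⁻¹ ^ 3 * U ^ 3 * single_one_mul K - dInv K * h2

/-- `a = q V³` -/
theorem exists_a : ∃ V : LaurentSeries K, alphaL K 2 = HahnSeries.single (1 : ℤ) 1 * V ^ 3 := by
  obtain ⟨U, hU, h⟩ := exists_dL K
  obtain ⟨W, hW⟩ := exists_j K
  refine ⟨((2 : ℕ) : LaurentSeries K) ^ 4 * qExpand K 2 U * W, ?_⟩
  have h1 : qExpand K 2 (HahnSeries.single (1 : ℤ) (1 : K)) =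
      HahnSeries.single (1 : ℤ) 1 * HahnSeries.single (1 : ℤ) 1 := by
    rw [qExpand_single, HahnSeries.single_mul_single]
    norm_num
  rw [alphaL, ← jqModC_eq_dInv, hW, h, map_mul, map_pow, h1]
  linear_combination ((2 : ℕ) : LaurentSeries K) ^ 12 * HahnSeries.single (1 : ℤ) 1 *
    qExpand K 2 U ^ 3 * W ^ 3 * single_one_mul K

theorem order_a : (alphaL K 2).order = 1 := by
  rw [order_alphaL (two_ne_zero' K)]; norm_num

theorem a_ne_zero : alphaL K 2 ≠ 0 := alphaL_ne_zero (two_ne_zero' K)

/-- **The relation of level two in characteristic three.** -/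
theorem rel : ∃ g c : K, g ≠ 0 ∧ c ≠ 0 ∧
    alphaL K 2 ^ 3 + algebraMap K (LaurentSeries K) g * (jqModC K * alphaL K 2) +
      algebraMap K (LaurentSeries K) c = 0 := by
  have hv := isPrimitiveRoot_neg_one K
  set D : Polynomial (Polynomial K) :=
    (deltaPoly 2).map (Polynomial.mapRingHom (Int.castRingHom K)) with hDdef
  have hD : D.map (evK K 2) =
      ∏ i, (Polynomial.X - Polynomial.C (aT K 2 (-1 : Kˣ) i)) := by
    rw [hDdef, Polynomial.map_map, evK_comp_map, deltaPoly_map 2 (isRoot_of_primitive hv)]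
  rw [Fintype.prod_option, Fin.prod_univ_two] at hD
  set A := aT K 2 (-1 : Kˣ) none with hA
  set B := aT K 2 (-1 : Kˣ) (some 0) with hB
  set C' := aT K 2 (-1 : Kˣ) (some 1) with hC
  have e : (Polynomial.X - Polynomial.C A) * ((Polynomial.X - Polynomial.C B) *
      (Polynomial.X - Polynomial.C C')) = Polynomial.X ^ 3 +
        Polynomial.C (-(A + B + C')) * Polynomial.X ^ 2 +
        Polynomial.C (A * B + A * C' + B * C') * Polynomial.X +
        Polynomial.C (-(A * B * C')) := by
    simp only [map_neg, map_add, map_mul]; ring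
  rw [e] at hD
  have e2 : evK K 2 (D.coeff 2) = -(A + B + C') := by
    rw [← Polynomial.coeff_map, hD]
    simp only [Polynomial.coeff_add, Polynomial.coeff_C_mul, Polynomial.coeff_X_pow,
      Polynomial.coeff_X, Polynomial.coeff_C]
    norm_num
  have e1 : evK K 2 (D.coeff 1) = A * B + A * C' + B * C' := by
    rw [← Polynomial.coeff_map, hD]
    simp only [Polynomial.coeff_add, Polynomial.coeff_C_mul, Polynomial.coeff_X_pow,
      Polynomial.coeff_X, Polynomial.coeff_C]
    norm_num
  have e0 : evK K 2 (D.coeff 0) = -(A * B * C') := by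
    rw [← Polynomial.coeff_map, hD]
    simp [Polynomial.coeff_X_pow, Polynomial.coeff_X, Polynomial.coeff_C]
  have hA0 : A ≠ 0 := by
    rw [hA, aT_none_eq]; exact qExpand_ne_zero' (a_ne_zero K)
  have oA : A.order = 2 := by
    rw [hA, aT_none_eq, order_qExpand, order_a]; norm_num
  have hsome : ∀ b : Fin 2, aT K 2 (-1 : Kˣ) (some b) ≠ 0 ∧
      (aT K 2 (-1 : Kˣ) (some b)).order = -1 := by
    intro b
    have h1 : twist ((-1 : Kˣ) ^ (b : ℕ)) (dL K) ≠ 0 := by
      intro h0
      have h2 := order_twist ((-1 : Kˣ) ^ (b : ℕ)) (dL K)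
      rw [h0, order_dL, HahnSeries.order_zero] at h2
      norm_num at h2
    have h2 : qExpand K 2 (dInv K) ≠ 0 := qExpand_ne_zero' dInv_ne_zero
    have h3 : aT K 2 (-1 : Kˣ) (some b) =
        twist ((-1 : Kˣ) ^ (b : ℕ)) (dL K) * qExpand K 2 (dInv K) := by
      simp only [aT, wtL, conjL, one_mul]
    rw [h3]
    refine ⟨mul_ne_zero h1 h2, ?_⟩
    rw [HahnSeries.order_mul h1 h2, order_twist, order_dL, order_qExpand, order_dInv]
    norm_num
  obtain ⟨hB0, oB⟩ := hsome 0
  obtain ⟨hC0, oC⟩ := hsome 1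
  rw [← hB] at hB0 oB
  rw [← hC] at hC0 oC
  -- degree bounds
  have d2 : (D.coeff 2).natDegree ≤ 0 := natDegree_le_of_coeff fun n hn => by
    rw [e2, HahnSeries.coeff_neg, HahnSeries.coeff_add, HahnSeries.coeff_add,
      HahnSeries.coeff_eq_zero_of_lt_order (by rw [oA]; push_cast at hn; linarith),
      HahnSeries.coeff_eq_zero_of_lt_order (by rw [oB]; push_cast at hn; linarith),
      HahnSeries.coeff_eq_zero_of_lt_order (by rw [oC]; push_cast at hn; linarith)]
    simp
  have d1 : (D.coeff 1).natDegree ≤ 1 := natDegree_le_of_coeff fun n hn => by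
    rw [e1, HahnSeries.coeff_add, HahnSeries.coeff_add,
      HahnSeries.coeff_eq_zero_of_lt_order (by
        rw [HahnSeries.order_mul hA0 hB0, oA, oB]; push_cast at hn; linarith),
      HahnSeries.coeff_eq_zero_of_lt_order (by
        rw [HahnSeries.order_mul hA0 hC0, oA, oC]; push_cast at hn; linarith),
      HahnSeries.coeff_eq_zero_of_lt_order (by
        rw [HahnSeries.order_mul hB0 hC0, oB, oC]; push_cast at hn; linarith)]
    simp
  have d0 : (D.coeff 0).natDegree ≤ 0 := natDegree_le_of_coeff fun n hn => by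
    rw [e0, HahnSeries.coeff_neg, HahnSeries.coeff_eq_zero_of_lt_order (by
      rw [HahnSeries.order_mul (mul_ne_zero hA0 hB0) hC0, HahnSeries.order_mul hA0 hB0,
        oA, oB, oC]; push_cast at hn; linarith)]
    simp
  obtain ⟨c2, hc2⟩ : ∃ c2 : K, D.coeff 2 = Polynomial.C c2 :=
    ⟨_, Polynomial.eq_C_of_natDegree_le_zero d2⟩
  obtain ⟨c, hc⟩ : ∃ c : K, D.coeff 0 = Polynomial.C c :=
    ⟨_, Polynomial.eq_C_of_natDegree_le_zero d0⟩
  obtain ⟨g, b, hgb⟩ : ∃ g b : K, D.coeff 1 = Polynomial.C g * Polynomial.X + Polynomial.C b :=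
    ⟨_, _, Polynomial.eq_X_add_C_of_natDegree_le_one d1⟩
  -- the relation
  have hrel : alphaL K 2 ^ 3 + algebraMap K (LaurentSeries K) c2 * alphaL K 2 ^ 2 +
      algebraMap K (LaurentSeries K) g * (jqModC K * alphaL K 2) +
      algebraMap K (LaurentSeries K) b * alphaL K 2 + algebraMap K (LaurentSeries K) c = 0 := by
    apply qExpand_injective 2
    rw [map_zero]
    have f2 : evK K 2 (D.coeff 2) = qExpand K 2 (algebraMap K (LaurentSeries K) c2) := by
      rw [hc2, evK_apply, Polynomial.aeval_C]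
    have f0 : evK K 2 (D.coeff 0) = qExpand K 2 (algebraMap K (LaurentSeries K) c) := by
      rw [hc, evK_apply, Polynomial.aeval_C]
    have f1 : evK K 2 (D.coeff 1) = qExpand K 2 (algebraMap K (LaurentSeries K) g * jqModC K +
        algebraMap K (LaurentSeries K) b) := by
      rw [hgb, evK_apply, map_add, map_mul, Polynomial.aeval_C, Polynomial.aeval_C,
        Polynomial.aeval_X]
    have f3 : alphaL K 2 ^ 3 + algebraMap K (LaurentSeries K) c2 * alphaL K 2 ^ 2 +
        algebraMap K (LaurentSeries K) g * (jqModC K * alphaL K 2) +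
        algebraMap K (LaurentSeries K) b * alphaL K 2 + algebraMap K (LaurentSeries K) c =
        alphaL K 2 ^ 3 + (algebraMap K (LaurentSeries K) c2) * alphaL K 2 ^ 2 +
        (algebraMap K (LaurentSeries K) g * jqModC K + algebraMap K (LaurentSeries K) b) *
          alphaL K 2 + algebraMap K (LaurentSeries K) c := by
      ring
    have hAe : qExpand K 2 (alphaL K 2) = A := (aT_none_eq (v := (-1 : Kˣ))).symm
    rw [f3, map_add, map_add, map_add, map_mul, map_mul, map_pow, map_pow, ← f2, ← f0, ← f1,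
      e2, e1, e0, hAe]
    ring
  obtain ⟨V, hV⟩ := exists_a K
  obtain ⟨W, hW⟩ := exists_j K
  have hja : jqModC K * alphaL K 2 = (W * V) ^ 3 := by
    rw [hV, hW]
    linear_combination W ^ 3 * V ^ 3 * single_one_mul K
  have ha2 : alphaL K 2 ^ 2 = HahnSeries.single (2 : ℤ) 1 * (V ^ 2) ^ 3 := by
    have : (HahnSeries.single (2 : ℤ) (1 : K)) =
        HahnSeries.single (1 : ℤ) 1 * HahnSeries.single (1 : ℤ) 1 := by
      rw [HahnSeries.single_mul_single]; norm_num
    rw [hV, this]; ring
  have hj0 : jqModC K ≠ 0 := by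
    intro h0
    have h1 := order_jqModC (K := K)
    rw [h0, HahnSeries.order_zero] at h1
    norm_num at h1
  have oj : (jqModC K * alphaL K 2).order = 0 := by
    rw [HahnSeries.order_mul hj0 (a_ne_zero K), order_jqModC, order_a]; norm_num
  have hcoef : ∀ n : ℤ, (alphaL K 2 ^ 3).coeff n + c2 * (alphaL K 2 ^ 2).coeff n +
      g * (jqModC K * alphaL K 2).coeff n + b * (alphaL K 2).coeff n +
      c * (1 : LaurentSeries K).coeff n = 0 := by
    intro n
    have h1 := congrArg (fun x : LaurentSeries K => x.coeff n) hrel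
    have h2 : algebraMap K (LaurentSeries K) c =
        HahnSeries.single (0 : ℤ) c * (1 : LaurentSeries K) := by
      rw [mul_one, algebraMap_eq_single]
    rw [h2] at h1
    simpa only [algebraMap_eq_single, HahnSeries.coeff_add, HahnSeries.coeff_single_zero_mul,
      HahnSeries.coeff_zero] using h1
  have hone : ∀ n : ℤ, n ≠ 0 → (1 : LaurentSeries K).coeff n = 0 := fun n hn => by
    rw [HahnSeries.coeff_one, if_neg hn]
  have hb : b = 0 := by
    have h1 := hcoef 1
    rw [coeff_cube _ (by norm_num), hja, coeff_cube _ (by norm_num), ha2,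
      HahnSeries.coeff_single_mul, coeff_cube _ (by norm_num), hone 1 one_ne_zero] at h1
    simp only [mul_zero, add_zero, zero_add] at h1
    exact (mul_eq_zero.mp h1).resolve_right (coeff_order_ne_zero (a_ne_zero K) (order_a K))
  have hc20 : c2 = 0 := by
    have h1 := hcoef 2
    have h2 : (alphaL K 2 ^ 2).coeff 2 ≠ 0 := by
      refine coeff_order_ne_zero (pow_ne_zero _ (a_ne_zero K)) ?_
      rw [HahnSeries.order_pow, order_a]; norm_num
    rw [coeff_cube _ (by norm_num), hja, coeff_cube _ (by norm_num), hb,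
      hone 2 two_ne_zero] at h1
    simp only [mul_zero, add_zero, zero_add, zero_mul] at h1
    exact (mul_eq_zero.mp h1).resolve_right h2
  rw [hb, hc20] at hrel hcoef
  have hg : g ≠ 0 := by
    rintro rfl
    have h1 := hcoef 3
    have h2 : (alphaL K 2 ^ 3).coeff 3 ≠ 0 := by
      refine coeff_order_ne_zero (pow_ne_zero _ (a_ne_zero K)) ?_
      rw [HahnSeries.order_pow, order_a]; norm_num
    rw [hone 3 three_ne_zero] at h1
    simp only [mul_zero, add_zero, zero_mul] at h1
    exact h2 h1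
  refine ⟨g, c, hg, ?_, ?_⟩
  · rintro rfl
    have h1 := hcoef 0
    have h2 : (alphaL K 2 ^ 3).coeff 0 = 0 := by
      apply HahnSeries.coeff_eq_zero_of_lt_order
      rw [HahnSeries.order_pow, order_a]; norm_num
    have h3 : (jqModC K * alphaL K 2).coeff 0 ≠ 0 :=
      coeff_order_ne_zero (mul_ne_zero hj0 (a_ne_zero K)) oj
    rw [h2] at h1
    simp only [zero_add, add_zero, zero_mul] at h1
    exact h3 ((mul_eq_zero.mp h1).resolve_left hg)
  · simpa only [map_zero, zero_mul, add_zero] using hrel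

end Fermat.Agent.LA3
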